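import Mathlib

/-!
# The analytic `j`-function on the upper half plane
-/

set_option autoImplicit false

open UpperHalfPlane ModularForm MatrixGroups Complex Filter
open scoped Topology Manifold

namespace Fermat.Agent.JFun

/-- The analytic `j`-function `j = E₄³ / Δ`. -/
noncomputable def jfun (z : ℍ) : ℂ := E₄ z ^ 3 / discriminant z

lemma mdiff_E4 : MDiff (E₄ : ℍ → ℂ) := ModularFormClass.holo E₄

lemma mdiff_E6 : MDiff (E₆ : ℍ → ℂ) := ModularFormClass.holo E₆

lemma mdiff_disc : MDiff (discriminant : ℍ → ℂ) := CuspForm.discriminant.holo'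

lemma mdiff_jfun : MDiff jfun := by
  have h : jfun = (E₄ : ℍ → ℂ) ^ 3 / discriminant := by
    ext z; simp [jfun]
  rw [h]
  exact (mdiff_E4.pow 3).div mdiff_disc discriminant_ne_zero

lemma levelOne_smul {F : Type*} [FunLike F ℍ ℂ] {k : ℤ} [SlashInvariantFormClass F 𝒮ℒ k] (f : F)
    (γ : SL(2, ℤ)) (z : ℍ) : f (γ • z) = denom γ z ^ k * f z :=
  SlashInvariantForm.slash_action_eqn'' f (Γ := 𝒮ℒ) (γ := (γ : GL (Fin 2) ℝ)) ⟨γ, rfl⟩ z

lemma denom_ne_zero' (γ : SL(2, ℤ)) (z : ℍ) : denom γ z ≠ 0 := denom_ne_zero _ _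

lemma jfun_smul (γ : SL(2, ℤ)) (z : ℍ) : jfun (γ • z) = jfun z := by
  have h4 := levelOne_smul E₄ γ z
  have hD := levelOne_smul CuspForm.discriminant γ z
  rw [CuspForm.coe_discriminant] at hD
  have h0 := denom_ne_zero' γ z
  have hD0 := discriminant_ne_zero z
  rw [jfun, jfun, h4, hD]
  field_simp

lemma jfun_sub_1728 (z : ℍ) : jfun z - 1728 = E₆ z ^ 2 / discriminant z := by
  have hD0 := discriminant_ne_zero z
  have h := discriminant_eq_E₄_cube_sub_E₆_sq z
  rw [jfun, div_sub' hD0, div_left_inj' hD0]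
  rw [h]
  ring

end Fermat.Agent.JFun
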