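import Mathlib

/-!
# Taylor power series of a complex function at a point, as a formal power series
-/

set_option autoImplicit false

open Filter Complex
open scoped Topology

namespace Fermat.Agent.JFun

/-- Taylor expansion of `f` at `c` as a formal power series. -/
noncomputable def taylorPS (f : ℂ → ℂ) (c : ℂ) : PowerSeries ℂ :=
  .mk fun m ↦ (m.factorial : ℂ)⁻¹ * iteratedDeriv m f c

lemma coeff_taylorPS (f : ℂ → ℂ) (c : ℂ) (m : ℕ) :
    (taylorPS f c).coeff m = (m.factorial : ℂ)⁻¹ * iteratedDeriv m f c := by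
  simp [taylorPS]

lemma taylorPS_congr {f g : ℂ → ℂ} {c : ℂ} (h : f =ᶠ[𝓝 c] g) : taylorPS f c = taylorPS g c := by
  ext m
  rw [coeff_taylorPS, coeff_taylorPS, h.iteratedDeriv_eq]

lemma taylorPS_mul {f g : ℂ → ℂ} {c : ℂ} (hf : AnalyticAt ℂ f c) (hg : AnalyticAt ℂ g c) :
    taylorPS (f * g) c = taylorPS f c * taylorPS g c := by
  ext m
  simp only [coeff_taylorPS, 
    iteratedDeriv_mul hf.contDiffAt hg.contDiffAt, Finset.mul_sum, PowerSeries.coeff_mul,
    Finset.Nat.sum_antidiagonal_eq_sum_range_succ_mk, Nat.succ_eq_add_one]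
  refine Finset.sum_congr rfl fun i hi ↦ ?_
  rw [Nat.cast_choose _ (by grind)]
  field_simp [Nat.factorial_ne_zero]

lemma taylorPS_add {f g : ℂ → ℂ} {c : ℂ} (hf : AnalyticAt ℂ f c) (hg : AnalyticAt ℂ g c) :
    taylorPS (f + g) c = taylorPS f c + taylorPS g c := by
  ext m
  simp [coeff_taylorPS, iteratedDeriv_add hf.contDiffAt hg.contDiffAt, mul_add]

lemma taylorPS_const (a c : ℂ) : taylorPS (fun _ => a) c = PowerSeries.C a := by
  ext m
  rw [coeff_taylorPS, iteratedDeriv_const, PowerSeries.coeff_C]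
  split_ifs with h <;> simp [h]

lemma taylorPS_one (c : ℂ) : taylorPS 1 c = 1 := taylorPS_const 1 c

lemma taylorPS_pow {f : ℂ → ℂ} {c : ℂ} (hf : AnalyticAt ℂ f c) (n : ℕ) :
    taylorPS (f ^ n) c = taylorPS f c ^ n := by
  induction n with
  | zero => simp [taylorPS_one]
  | succ n ih => rw [pow_succ, pow_succ, taylorPS_mul (hf.pow n) hf, ih]

lemma taylorPS_id_zero : taylorPS (fun z => z) 0 = PowerSeries.X := by
  ext m
  rw [coeff_taylorPS, PowerSeries.coeff_X]
  rcases m with _ | _ | m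
  · simp
  · simp
  · have h : iteratedDeriv (m + 1 + 1) (fun z : ℂ => z) 0 = 0 := by
      rw [iteratedDeriv_succ', show deriv (fun z : ℂ => z) = fun _ => 1 from funext fun z => by simp,
        iteratedDeriv_const]
      simp
    simp [h]

/-- Locally uniform limits: Taylor coefficients converge. -/
lemma tendstoLocallyUniformlyOn_iteratedDeriv {ι : Type*} {φ : Filter ι} [φ.NeBot]
    {F : ι → ℂ → ℂ} {f : ℂ → ℂ} {U : Set ℂ} (hU : IsOpen U)
    (hf : TendstoLocallyUniformlyOn F f φ U) (hF : ∀ n, DifferentiableOn ℂ (F n) U) (k : ℕ) :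
    TendstoLocallyUniformlyOn (fun n => iteratedDeriv k (F n)) (iteratedDeriv k f) φ U := by
  induction k with
  | zero => simpa using hf
  | succ k ih =>
    have h2 : ∀ n, DifferentiableOn ℂ (iteratedDeriv k (F n)) U := by
      intro n
      have : AnalyticOnNhd ℂ (F n) U := (hF n).analyticOnNhd hU
      have h3 : AnalyticOnNhd ℂ (iteratedDeriv k (F n)) U := by
        rw [iteratedDeriv_eq_iterate]
        exact this.iterated_deriv k
      exact h3.differentiableOn
    have := ih.deriv (Eventually.of_forall h2) hU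
    simpa [Function.comp_def, ← iteratedDeriv_succ] using this

lemma tendsto_coeff_taylorPS {ι : Type*} {φ : Filter ι} [φ.NeBot]
    {F : ι → ℂ → ℂ} {f : ℂ → ℂ} {U : Set ℂ} (hU : IsOpen U)
    (hf : TendstoLocallyUniformlyOn F f φ U) (hF : ∀ n, DifferentiableOn ℂ (F n) U)
    {c : ℂ} (hc : c ∈ U) (k : ℕ) :
    Tendsto (fun n => (taylorPS (F n) c).coeff k) φ (𝓝 ((taylorPS f c).coeff k)) := by
  simp only [coeff_taylorPS]
  exact ((tendstoLocallyUniformlyOn_iteratedDeriv hU hf hF k).tendsto_at hc).const_mul _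

end Fermat.Agent.JFun
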