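import Mathlib
import Fermat.Prelude.Def_ModularCurve_X0
import Fermat.Agent.JFun.Taylor
import Fermat.Agent.JFun.Basic

/-!
# q-expansions of `Δ`, `E₄` and `j` in terms of the formal series of the prelude
-/

set_option autoImplicit false

open Filter Complex UpperHalfPlane ModularForm
open scoped Topology

namespace Fermat.Agent.JFun

open PowerSeries in
lemma taylorPS_partial_prod (s : Finset ℕ) :
    taylorPS (fun q => ∏ n ∈ s, (1 - q ^ (n + 1))) 0 =
      (∏ n ∈ s, (1 - PowerSeries.X ^ (n + 1)) : PowerSeries ℤ).map (Int.castRingHom ℂ) := by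
  induction s using Finset.induction_on with
  | empty => simpa using taylorPS_const 1 0
  | insert a s ha ih =>
    have h1 : (fun q : ℂ => ∏ n ∈ insert a s, (1 - q ^ (n + 1))) =
        (fun q => 1 - q ^ (a + 1)) * (fun q => ∏ n ∈ s, (1 - q ^ (n + 1))) := by
      funext q
      simp [Finset.prod_insert ha]
    have h2 : taylorPS (fun q : ℂ => 1 - q ^ (a + 1)) 0 = 1 - X ^ (a + 1) := by
      have e : (fun q : ℂ => 1 - q ^ (a + 1)) =
          (fun _ => 1) + (fun _ => -1) * (fun z => z) ^ (a + 1) := by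
        funext q; simp [sub_eq_add_neg]
      rw [e, taylorPS_add (by fun_prop) (by fun_prop), taylorPS_mul (by fun_prop) (by fun_prop),
        taylorPS_pow (by fun_prop), taylorPS_id_zero, taylorPS_const, taylorPS_const]
      simp [sub_eq_add_neg]
    rw [h1, taylorPS_mul (by fun_prop) (by fun_prop), ih, h2, Finset.prod_insert ha, map_mul]
    simp

open scoped PowerSeries.WithPiTopology in
lemma taylorPS_tprod :
    taylorPS (fun q => ∏' n : ℕ, (1 - q ^ (n + 1))) 0 =
      ModularCurve.etaProd.map (Int.castRingHom ℂ) := by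
  have hprod := multipliableLocallyUniformlyOn_one_sub_pow.hasProdLocallyUniformlyOn
  rw [hasProdLocallyUniformlyOn_iff_tendstoLocallyUniformlyOn] at hprod
  have hZ := (PowerSeries.WithPiTopology.multipliable_one_sub_X_pow ℤ).hasProd
  ext k
  have h1 := tendsto_coeff_taylorPS (Metric.isOpen_ball) hprod
    (fun s => by fun_prop) (Metric.mem_ball_self (x := (0:ℂ)) one_pos) k
  have h2 : Tendsto (fun s : Finset ℕ =>
      (PowerSeries.coeff k) (∏ n ∈ s, (1 - PowerSeries.X ^ (n + 1)) : PowerSeries ℤ)) atTop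
      (𝓝 ((PowerSeries.coeff k) ModularCurve.etaProd)) :=
    ((PowerSeries.WithPiTopology.continuous_coeff ℤ k).tendsto _).comp hZ
  have h3 : Tendsto (fun s : Finset ℕ =>
      (((PowerSeries.coeff k) (∏ n ∈ s, (1 - PowerSeries.X ^ (n + 1)) : PowerSeries ℤ) : ℤ) : ℂ))
      atTop (𝓝 (((PowerSeries.coeff k) ModularCurve.etaProd : ℤ) : ℂ)) :=
    (continuous_of_discreteTopology.tendsto _).comp h2
  have h4 : (fun s : Finset ℕ => (taylorPS (fun q => ∏ n ∈ s, (1 - q ^ (n + 1))) 0).coeff k) =
      fun s : Finset ℕ =>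
      (((PowerSeries.coeff k) (∏ n ∈ s, (1 - PowerSeries.X ^ (n + 1)) : PowerSeries ℤ) : ℤ) : ℂ) := by
    funext s
    rw [taylorPS_partial_prod, PowerSeries.coeff_map, eq_intCast]
  rw [h4] at h1
  have := tendsto_nhds_unique h1 h3
  rw [this]
  simp

lemma qExpansion_eq_taylorPS (h : ℝ) (f : ℍ → ℂ) : qExpansion h f = taylorPS (cuspFunction h f) 0 :=
  rfl

lemma qExpansion_discriminant :
    qExpansion 1 discriminant =
      PowerSeries.X * ModularCurve.dedekindEtaUnit.map (Int.castRingHom ℂ) := by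
  have hb : Metric.ball (0 : ℂ) 1 ∈ 𝓝 (0 : ℂ) := Metric.ball_mem_nhds _ one_pos
  have h0 : cuspFunction 1 discriminant =ᶠ[𝓝 0]
      (fun z => z) * (fun q => ∏' n : ℕ, (1 - q ^ (n + 1))) ^ 24 := by
    filter_upwards [hb] with q hq
    rw [discriminant_cuspFunction_eqOn hq]
    simp only [Pi.mul_apply, Pi.pow_apply]
    rw [(multipliable_one_sub_pow (by simpa using hq)).tprod_pow]
  have ha : AnalyticAt ℂ (fun q : ℂ => ∏' n : ℕ, (1 - q ^ (n + 1))) 0 :=
    differentiableOn_tprod_one_sub_pow.analyticAt hb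
  rw [qExpansion_eq_taylorPS, taylorPS_congr h0, taylorPS_mul (by fun_prop) (ha.pow 24),
    taylorPS_pow ha, taylorPS_tprod, taylorPS_id_zero, ModularCurve.dedekindEtaUnit, map_pow]

lemma qExpansion_E4 :
    qExpansion 1 E₄ = ModularCurve.eisenstein4.map (Int.castRingHom ℂ) := by
  ext m
  rw [EisensteinSeries.E_qExpansion_coeff _ ⟨2, rfl⟩]
  simp only [ModularCurve.eisenstein4, PowerSeries.coeff_map, PowerSeries.coeff_mk]
  split_ifs with h
  · simp
  · rw [show bernoulli 4 = -1 / 30 by decide +kernel]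
    simp [ArithmeticFunction.sigma_apply]
    norm_num

end Fermat.Agent.JFun
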