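import Mathlib
import Fermat.Agent.JFun.QExp

/-!
# Holomorphic `SL₂(ℤ)`-invariant functions of moderate growth are polynomials in `j`
-/

set_option autoImplicit false

open Filter Complex UpperHalfPlane ModularForm MatrixGroups
open scoped Topology Manifold

namespace Fermat.Agent.JFun

/-- power series with coefficients in a subring -/
noncomputable def psIn (K : Subring ℂ) : Subring (PowerSeries ℂ) := (PowerSeries.map K.subtype).range

lemma mem_psIn {K : Subring ℂ} {f : PowerSeries ℂ} : f ∈ psIn K ↔ ∀ n, f.coeff n ∈ K := by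
  constructor
  · rintro ⟨p, rfl⟩ n
    simp
  · intro h
    refine ⟨PowerSeries.mk fun n => ⟨f.coeff n, h n⟩, ?_⟩
    ext n
    simp

lemma map_int_mem_psIn (K : Subring ℂ) (f : PowerSeries ℤ) :
    f.map (Int.castRingHom ℂ) ∈ psIn K := by
  rw [mem_psIn]
  intro n
  simp

/-- Division by `Δ` preserves the coefficient ring. -/
lemma mem_psIn_of_disc_mul {K : Subring ℂ} {f : PowerSeries ℂ}
    (h : qExpansion 1 discriminant * f ∈ psIn K) : f ∈ psIn K := by
  rw [qExpansion_discriminant] at h
  have h1 : ModularCurve.dedekindEtaUnitInv.map (Int.castRingHom ℂ) *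
      (PowerSeries.X * ModularCurve.dedekindEtaUnit.map (Int.castRingHom ℂ) * f) ∈ psIn K :=
    Subring.mul_mem _ (map_int_mem_psIn K _) h
  have h2 : ModularCurve.dedekindEtaUnitInv.map (Int.castRingHom ℂ) *
      (PowerSeries.X * ModularCurve.dedekindEtaUnit.map (Int.castRingHom ℂ) * f) =
      PowerSeries.X * f := by
    have := congrArg (PowerSeries.map (Int.castRingHom ℂ)) ModularCurve.dedekindEtaUnit_mul_inv
    rw [map_mul, map_one] at this
    linear_combination (PowerSeries.X * f) * this
  rw [h2, mem_psIn] at h1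
  rw [mem_psIn]
  intro n
  simpa [PowerSeries.coeff_succ_X_mul] using h1 (n + 1)

/-- The level one form of weight `12 n` attached to an invariant function. -/
noncomputable def formOf (g : ℍ → ℂ) (hg : MDiff g) (hinv : ∀ (γ : SL(2, ℤ)) (z : ℍ), g (γ • z) = g z)
    (n : ℕ) (hb : IsBoundedAtImInfty (fun z => g z * discriminant z ^ n)) :
    ModularForm 𝒮ℒ (12 * n) where
  toFun := fun z => g z * discriminant z ^ n
  slash_action_eq' := by
    rintro _ ⟨γ, rfl⟩
    ext z
    have hD := levelOne_smul CuspForm.discriminant γ z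
    rw [CuspForm.coe_discriminant] at hD
    have h0 := denom_ne_zero' γ z
    change ((fun z => g z * discriminant z ^ n) ∣[(12 * n : ℤ)] γ) z = _
    rw [ModularForm.SL_slash_apply]
    simp only [hinv, hD]
    rw [mul_pow, ← zpow_natCast, ← zpow_mul, zpow_neg]
    field_simp
  holo' := hg.mul (mdiff_disc.pow n)
  bdd_at_cusps' := by
    intro c hc
    rw [Subgroup.IsArithmetic.isCusp_iff_isCusp_SL2Z] at hc
    rw [OnePoint.isBoundedAt_iff_forall_SL2Z hc]
    intro γ _
    have : ((fun z => g z * discriminant z ^ n) ∣[(12 * n : ℤ)] γ) =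
        fun z => g z * discriminant z ^ n := by
      ext z
      have hD := levelOne_smul CuspForm.discriminant γ z
      rw [CuspForm.coe_discriminant] at hD
      have h0 := denom_ne_zero' γ z
      rw [ModularForm.SL_slash_apply]
      simp only [hinv, hD]
      rw [mul_pow, ← zpow_natCast, ← zpow_mul, zpow_neg]
      field_simp
    rw [this]
    exact hb

@[simp] lemma formOf_apply (g : ℍ → ℂ) (hg : MDiff g)
    (hinv : ∀ (γ : SL(2, ℤ)) (z : ℍ), g (γ • z) = g z)
    (n : ℕ) (hb : IsBoundedAtImInfty (fun z => g z * discriminant z ^ n)) (z : ℍ) :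
    formOf g hg hinv n hb z = g z * discriminant z ^ n := rfl

lemma coe_formOf (g : ℍ → ℂ) (hg : MDiff g)
    (hinv : ∀ (γ : SL(2, ℤ)) (z : ℍ), g (γ • z) = g z)
    (n : ℕ) (hb : IsBoundedAtImInfty (fun z => g z * discriminant z ^ n)) :
    (formOf g hg hinv n hb : ℍ → ℂ) = fun z => g z * discriminant z ^ n := rfl

/-- A holomorphic `SL₂(ℤ)`-invariant function of moderate growth is a polynomial in `j`;
the coefficients of the polynomial are in any subring containing the `q`-coefficients. -/
theorem exists_poly_jfun (K : Subring ℂ) (n : ℕ) :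
    ∀ (g : ℍ → ℂ) (_ : MDiff g) (_ : ∀ (γ : SL(2, ℤ)) (z : ℍ), g (γ • z) = g z)
      (_ : IsBoundedAtImInfty (fun z => g z * discriminant z ^ n))
      (_ : qExpansion 1 (fun z => g z * discriminant z ^ n) ∈ psIn K),
    ∃ P : Polynomial ℂ, (∀ i, P.coeff i ∈ K) ∧ P.natDegree ≤ n ∧ ∀ z, g z = P.eval (jfun z) := by
  induction n with
  | zero =>
    intro g hg hinv hb hK
    set h := formOf g hg hinv 0 hb with hh
    have hconst := ModularFormClass.levelOne_weight_zero_const (F := ModularForm 𝒮ℒ 0)
      (ModularForm.mcast (by simp) h)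
    obtain ⟨c, hc⟩ := hconst
    have hc' : ∀ z, g z = c := by
      intro z
      have h2 : g z * discriminant z ^ 0 = c := congrFun hc z
      simpa using h2
    have hcK : c ∈ K := by
      have h1 : (fun z => g z * discriminant z ^ 0) = c • (1 : ℍ → ℂ) := by
        funext z; simp [hc']
      rw [h1, qExpansion_smul, qExpansion_one, mem_psIn] at hK
      · simpa using hK 0
      · have : cuspFunction 1 (1 : ℍ → ℂ) = 1 := by
          ext q
          rcases eq_or_ne q 0 with rfl | hq
          · simpa [cuspFunction, Function.Periodic.cuspFunction] using!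
              tendsto_const_nhds.limUnder_eq
          · simp [cuspFunction, Function.Periodic.cuspFunction_eq_of_nonzero 1 _ hq]
        rw [this]
        exact analyticAt_const
    refine ⟨Polynomial.C c, fun i => ?_, by simp, fun z => by simp [hc']⟩
    rw [Polynomial.coeff_C]
    split_ifs
    · exact hcK
    · exact K.zero_mem
  | succ n ih =>
    intro g hg hinv hb hK
    set h := formOf g hg hinv (n + 1) hb with hh
    set c : ℂ := (qExpansion 1 h).coeff 0 with hc
    have hcK : c ∈ K := (mem_psIn.mp hK) 0
    let E : ModularForm 𝒮ℒ (12 * ((n + 1 : ℕ) : ℤ)) :=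
      ModularForm.mcast (by push_cast; ring) (E₄.pow (3 * (n + 1)))
    have hEz : ∀ z, E z = E₄ z ^ (3 * (n + 1)) := fun z => by
      have h1 : E z = (E₄.pow (3 * (n + 1)) : ℍ → ℂ) z := rfl
      rw [h1, ModularForm.coe_pow, Pi.pow_apply]
    have hEq : qExpansion 1 E = (ModularCurve.eisenstein4.map (Int.castRingHom ℂ)) ^ (3 * (n + 1)) := by
      rw [← qExpansion_E4, ← ModularForm.qExpansion_pow one_pos one_mem_strictPeriods_SL]
      rfl
    have hE0 : (qExpansion 1 E).coeff 0 = 1 := by
      rw [hEq, PowerSeries.coeff_zero_eq_constantCoeff, map_pow,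
        ← PowerSeries.coeff_zero_eq_constantCoeff, PowerSeries.coeff_map,
        PowerSeries.coeff_zero_eq_constantCoeff, ModularCurve.constantCoeff_eisenstein4]
      simp
    set h' : ModularForm 𝒮ℒ (12 * ((n + 1 : ℕ) : ℤ)) := h - c • E with hh'
    have hq' : qExpansion 1 h' = qExpansion 1 h - c • qExpansion 1 E := by
      rw [hh', FunLike.coe_sub, ModularForm.qExpansion_sub one_pos one_mem_strictPeriods_SL,
        FunLike.coe_smul, ModularForm.qExpansion_smul one_pos one_mem_strictPeriods_SL]
    have h0 : (qExpansion 1 h').coeff 0 = 0 := by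
      rw [hq', map_sub, PowerSeries.coeff_smul, hE0, ← hc]
      simp
    set h'' := CuspForm.discriminantEquiv (toCuspForm h' h0) with hh''
    have hfac := ModularForm.qExpansion_eq_qExpansion_discriminant_mul h' h0
    have hval : ∀ z, (g z - c * jfun z ^ (n + 1)) * discriminant z ^ n = h'' z := by
      intro z
      have hD0 := discriminant_ne_zero z
      have e1 : h'' z = h' z / discriminant z := rfl
      have e2 : h' z = g z * discriminant z ^ (n + 1) - c * E₄ z ^ (3 * (n + 1)) := by
        rw [hh', FunLike.coe_sub, FunLike.coe_smul, Pi.sub_apply, Pi.smul_apply, hEz]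
        rfl
      rw [e1, e2, jfun, div_pow, ← pow_mul]
      field_simp
      ring
    have hfun : (fun z => (g z - c * jfun z ^ (n + 1)) * discriminant z ^ n) = h'' := funext hval
    obtain ⟨P, hPK, hPd, hP⟩ := ih (fun z => g z - c * jfun z ^ (n + 1))
      (by
        have := hg.sub ((mdifferentiable_const (c := c)).mul (mdiff_jfun.pow (n + 1)))
        exact this)
      (fun γ z => by simp only [hinv, jfun_smul])
      (by
        rw [hfun]
        exact ModularFormClass.bdd_at_infty h'')
      (by
        rw [hfun]
        refine mem_psIn_of_disc_mul ?_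
        rw [← hfac, hq']
        refine Subring.sub_mem _ hK ?_
        rw [hEq, PowerSeries.smul_eq_C_mul]
        refine Subring.mul_mem _ ?_ (Subring.pow_mem _ (map_int_mem_psIn K _) _)
        rw [mem_psIn]
        intro m
        rw [PowerSeries.coeff_C]
        split_ifs
        · exact hcK
        · exact K.zero_mem)
    refine ⟨P + Polynomial.C c * Polynomial.X ^ (n + 1), fun i => ?_, ?_, fun z => ?_⟩
    · rw [Polynomial.coeff_add, Polynomial.coeff_C_mul_X_pow]
      refine K.add_mem (hPK i) ?_
      split_ifs
      · exact hcK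
      · exact K.zero_mem
    · exact (Polynomial.natDegree_add_le _ _).trans
        (max_le (hPd.trans n.le_succ) (Polynomial.natDegree_C_mul_X_pow_le _ _))
    · rw [Polynomial.eval_add, ← hP z]
      simp

end Fermat.Agent.JFun
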