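import Mathlib
import Fermat.Agent.JFun.LevelOne

/-!
# The derivative of `j`, orders of vanishing, and surjectivity of `j`
-/

set_option autoImplicit false

open Filter Complex UpperHalfPlane ModularForm MatrixGroups Derivative Function
open scoped Topology Manifold

namespace Fermat.Agent.JFun

local notation "𝕢" => Periodic.qParam

lemma D_eq_mul_deriv_cuspFunction {f : ℍ → ℂ} (hper : Periodic (f ∘ ofComplex) (1 : ℝ))
    (hol : MDiff f) (hb : IsBoundedAtImInfty f) (z : ℍ) :
    D f z = 𝕢 1 z * deriv (cuspFunction 1 f) (𝕢 1 z) := by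
  have h1 : f ∘ ofComplex = (cuspFunction 1 f) ∘ (𝕢 1) := by
    funext w
    exact (Periodic.eq_cuspFunction one_ne_zero hper w).symm
  have h2 : DifferentiableAt ℂ (cuspFunction 1 f) (𝕢 1 (z : ℂ)) :=
    differentiableAt_cuspFunction one_pos hper hol hb (Periodic.norm_qParam_lt_one one_pos z.im_pos)
  have h3 : HasDerivAt (fun w : ℂ => 𝕢 1 w) (𝕢 1 (z : ℂ) * (2 * Real.pi * Complex.I)) (z : ℂ) := by
    have : (fun w : ℂ => 𝕢 1 w) = fun w => Complex.exp (2 * Real.pi * Complex.I * w) := by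
      funext w; simp [Periodic.qParam]
    rw [this, show 𝕢 1 (z : ℂ) = Complex.exp (2 * Real.pi * Complex.I * z) by simp [Periodic.qParam]]
    have := ((hasDerivAt_id (z : ℂ)).const_mul (2 * Real.pi * Complex.I)).cexp
    simpa using this
  rw [normalizedDerivOfComplex, h1, (h2.hasDerivAt.comp (z : ℂ) h3).deriv]
  have : (2 * Real.pi * Complex.I : ℂ) ≠ 0 := by simp [Real.pi_ne_zero]
  field_simp

lemma tendsto_D_atImInfty {f : ℍ → ℂ} (hper : Periodic (f ∘ ofComplex) (1 : ℝ))
    (hol : MDiff f) (hb : IsBoundedAtImInfty f) : Tendsto (D f) atImInfty (𝓝 0) := by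
  have h1 : AnalyticAt ℂ (cuspFunction 1 f) 0 := analyticAt_cuspFunction_zero one_pos hper hol hb
  have h2 : Tendsto (fun q : ℂ => q * deriv (cuspFunction 1 f) q) (𝓝 0) (𝓝 0) := by
    have : ContinuousAt (fun q : ℂ => q * deriv (cuspFunction 1 f) q) 0 :=
      continuousAt_id.mul h1.deriv.continuousAt
    simpa [ContinuousAt] using this
  have h3 := h2.comp (qParam_tendsto_atImInfty one_pos)
  exact h3.congr fun z => (D_eq_mul_deriv_cuspFunction hper hol hb z).symm

lemma periodic_levelOne {F : Type*} [FunLike F ℍ ℂ] {k : ℤ} [SlashInvariantFormClass F 𝒮ℒ k]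
    (f : F) : Periodic (f ∘ ofComplex) (1 : ℝ) :=
  SlashInvariantFormClass.periodic_comp_ofComplex f one_mem_strictPeriods_SL

lemma tendsto_levelOne {F : Type*} [FunLike F ℍ ℂ] {k : ℤ} [ModularFormClass F 𝒮ℒ k]
    (f : F) : Tendsto f atImInfty (𝓝 ((qExpansion 1 f).coeff 0)) := by
  have h1 : AnalyticAt ℂ (cuspFunction 1 f) 0 :=
    ModularFormClass.analyticAt_cuspFunction_zero f one_pos one_mem_strictPeriods_SL
  have h2 := h1.continuousAt.tendsto.comp (qParam_tendsto_atImInfty one_pos)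
  have h3 : (qExpansion 1 f).coeff 0 = cuspFunction 1 f 0 := by simp [qExpansion_coeff]
  rw [h3]
  exact h2.congr fun z => eq_cuspFunction z one_ne_zero (periodic_levelOne f)

/-- The Rankin–Cohen bracket `4 E₄ E₆' - 6 E₆ E₄'`. -/
noncomputable def bracket (z : ℍ) : ℂ := 4 * (E₄ z * D E₆ z) - 6 * (E₆ z * D E₄ z)

lemma bracket_eq_serre (z : ℍ) : bracket z =
    4 * (E₄ z * serreDerivative 6 E₆ z) - 6 * (E₆ z * serreDerivative 4 E₄ z) := by
  simp only [bracket, serreDerivative_apply]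
  ring

lemma mdiff_bracket : MDiff bracket := by
  have h4 := mdiff_E4
  have h6 := mdiff_E6
  have h4' := normalizedDerivOfComplex_mdifferentiable h4
  have h6' := normalizedDerivOfComplex_mdifferentiable h6
  exact ((mdifferentiable_const (c := (4:ℂ))).mul (h4.mul h6')).sub
    ((mdifferentiable_const (c := (6:ℂ))).mul (h6.mul h4'))

lemma bracket_slash (γ : SL(2, ℤ)) : (bracket ∣[(12 : ℤ)] γ) = bracket := by
  have e4 : (E₄ : ℍ → ℂ) ∣[(4 : ℤ)] γ = E₄ :=
    SlashInvariantForm.slash_action_eqn (Γ := 𝒮ℒ) E₄ (γ : GL (Fin 2) ℝ) ⟨γ, rfl⟩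
  have e6 : (E₆ : ℍ → ℂ) ∣[(6 : ℤ)] γ = E₆ :=
    SlashInvariantForm.slash_action_eqn (Γ := 𝒮ℒ) E₆ (γ : GL (Fin 2) ℝ) ⟨γ, rfl⟩
  have s4 := serreDerivative_slash_invariant mdiff_E4 e4
  have s6 := serreDerivative_slash_invariant mdiff_E6 e6
  ext z
  have h0 := denom_ne_zero' γ z
  have e4' := congrFun e4 z
  have e6' := congrFun e6 z
  have s4' := congrFun s4 z
  have s6' := congrFun s6 z
  rw [ModularForm.SL_slash_apply] at e4' e6' s4' s6' ⊢
  rw [bracket_eq_serre, bracket_eq_serre]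
  push_cast at s4' s6'
  rw [← s4', ← s6']
  conv_rhs => rw [← e4', ← e6']
  norm_num [zpow_neg]
  field_simp

lemma tendsto_bracket : Tendsto bracket atImInfty (𝓝 0) := by
  have h4 := tendsto_levelOne E₄
  have h6 := tendsto_levelOne E₆
  have d4 := tendsto_D_atImInfty (periodic_levelOne E₄) mdiff_E4 (ModularFormClass.bdd_at_infty E₄)
  have d6 := tendsto_D_atImInfty (periodic_levelOne E₆) mdiff_E6 (ModularFormClass.bdd_at_infty E₆)
  have := ((h4.mul d6).const_mul 4).sub ((h6.mul d4).const_mul 6)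
  rw [mul_zero, mul_zero, mul_zero, mul_zero, sub_zero] at this
  exact this

/-- The bracket as a weight 12 cusp form. -/
noncomputable def bracketForm : CuspForm 𝒮ℒ 12 where
  toFun := bracket
  slash_action_eq' := by
    rintro _ ⟨γ, rfl⟩
    exact bracket_slash γ
  holo' := mdiff_bracket
  zero_at_cusps' hc := by
    rw [Subgroup.IsArithmetic.isCusp_iff_isCusp_SL2Z] at hc
    rw [OnePoint.isZeroAt_iff_forall_SL2Z hc]
    intro γ _
    rw [bracket_slash]
    exact tendsto_bracket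

lemma exists_bracket_eq : ∃ c : ℂ, ∀ z, bracket z = c * discriminant z := by
  obtain ⟨c, hc⟩ := CuspForm.exists_smul_discriminant_of_weight_eq_twelve bracketForm
  refine ⟨c, fun z => ?_⟩
  have : (c • CuspForm.discriminant : CuspForm 𝒮ℒ 12) z = bracketForm z := by rw [hc]
  exact this.symm

lemma D_jfun (z : ℍ) : D jfun z = E₄ z ^ 2 * E₆ z * bracket z / (3456 * discriminant z ^ 2) := by
  have hD0 := discriminant_ne_zero z
  have hΔ : discriminant = (1 / 1728 : ℂ) • ((E₄ : ℍ → ℂ) ^ 3 - (E₆ : ℍ → ℂ) ^ 2) := by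
    ext w
    rw [discriminant_eq_E₄_cube_sub_E₆_sq]
    simp only [Pi.smul_apply, Pi.sub_apply, Pi.pow_apply, smul_eq_mul]
    ring
  have h1 : jfun * discriminant = (E₄ : ℍ → ℂ) ^ 3 := by
    ext w
    simp only [Pi.mul_apply, Pi.pow_apply, jfun]
    exact div_mul_cancel₀ _ (discriminant_ne_zero w)
  have h2 : D (jfun * discriminant) z = D ((E₄ : ℍ → ℂ) ^ 3) z := by rw [h1]
  rw [normalizedDerivOfComplex_mul _ _ mdiff_jfun mdiff_disc,
    normalizedDerivOfComplex_pow _ _ mdiff_E4] at h2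
  have h3 : D discriminant z = (1 / 1728 : ℂ) * (3 * E₄ z ^ 2 * D E₄ z - 2 * E₆ z * D E₆ z) := by
    conv_lhs => rw [hΔ]
    rw [normalizedDerivOfComplex_smul _ _ ((mdiff_E4.pow 3).sub (mdiff_E6.pow 2)),
      normalizedDerivOfComplex_sub _ _ (mdiff_E4.pow 3) (mdiff_E6.pow 2),
      normalizedDerivOfComplex_pow _ _ mdiff_E4, normalizedDerivOfComplex_pow _ _ mdiff_E6]
    simp
  simp only [Pi.add_apply, Pi.mul_apply, Pi.pow_apply, Pi.natCast_apply] at h2
  rw [h3] at h2
  have h4 := discriminant_eq_E₄_cube_sub_E₆_sq z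
  rw [eq_div_iff (by simp [hD0]), bracket]
  have h5 : jfun z * discriminant z = E₄ z ^ 3 := congrFun h1 z
  push_cast at h2
  norm_num at h2
  have h6 : discriminant z * 1728 = E₄ z ^ 3 - E₆ z ^ 2 := by rw [h4]; ring
  linear_combination (3456 * discriminant z) * h2 + (-2) * (3 * E₄ z ^ 2 * D E₄ z - 2 * E₆ z * D E₆ z) * h5 + 6 * E₄ z ^ 2 * D E₄ z * h6

lemma tendsto_E4 : Tendsto (E₄ : ℍ → ℂ) atImInfty (𝓝 1) := by
  have := tendsto_levelOne E₄
  rwa [EisensteinSeries.E_qExpansion_coeff_zero _ ⟨2, rfl⟩] at this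

lemma tendsto_disc : Tendsto (discriminant : ℍ → ℂ) atImInfty (𝓝 0) := discriminant_isZeroAtImInfty

lemma not_const_jfun (c : ℂ) (h : ∀ z, jfun z = c) : False := by
  have h1 : ∀ z, E₄ z ^ 3 = c * discriminant z := fun z => by
    rw [← h z, jfun, div_mul_cancel₀ _ (discriminant_ne_zero z)]
  have h2 : Tendsto (fun z => E₄ z ^ 3) atImInfty (𝓝 (1 ^ 3)) := tendsto_E4.pow 3
  have h3 : Tendsto (fun z => E₄ z ^ 3) atImInfty (𝓝 (c * 0)) :=
    (tendsto_disc.const_mul c).congr fun z => (h1 z).symm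
  have := tendsto_nhds_unique h2 h3
  simp at this

lemma D_eq_zero_imp_const {f : ℍ → ℂ} (hf : MDiff f) (h : ∀ z, D f z = 0) :
    ∃ c, ∀ z, f z = c := by
  have h1 : DifferentiableOn ℂ (f ∘ ofComplex) upperHalfPlaneSet := mdifferentiable_iff.mp hf
  refine ⟨f UpperHalfPlane.I, fun z => ?_⟩
  have h2 : Set.EqOn (deriv (f ∘ ofComplex)) 0 upperHalfPlaneSet := by
    intro w hw
    have := h ⟨w, hw⟩
    rw [normalizedDerivOfComplex] at this
    have h0 : (2 * Real.pi * Complex.I : ℂ)⁻¹ ≠ 0 := by simp [Real.pi_ne_zero]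
    exact (mul_eq_zero.mp this).resolve_left h0
  have h3 := IsOpen.is_const_of_deriv_eq_zero isOpen_upperHalfPlaneSet
    (Convex.isPreconnected (convex_halfSpace_im_gt 0)) h1 h2 z.2 UpperHalfPlane.I.2
  simp only [Function.comp_apply] at h3
  rwa [ofComplex_apply, ofComplex_apply] at h3

lemma bracket_ne_zero (z : ℍ) : bracket z ≠ 0 := by
  obtain ⟨c, hc⟩ := exists_bracket_eq
  have hc0 : c ≠ 0 := by
    rintro rfl
    obtain ⟨a, ha⟩ := D_eq_zero_imp_const mdiff_jfun (fun z => by rw [D_jfun, hc]; simp)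
    exact not_const_jfun a ha
  rw [hc]
  exact mul_ne_zero hc0 (discriminant_ne_zero z)

/-- order of vanishing at a point of the upper half plane -/
noncomputable def ordAt (f : ℍ → ℂ) (z : ℍ) : ℕ∞ := analyticOrderAt (f ∘ ofComplex) (z : ℂ)

lemma analyticAt_of_mdiff {f : ℍ → ℂ} (hf : MDiff f) (z : ℍ) :
    AnalyticAt ℂ (f ∘ ofComplex) (z : ℂ) :=
  (UpperHalfPlane.mdifferentiable_iff.mp hf).analyticAt (isOpen_upperHalfPlaneSet.mem_nhds z.2)

lemma ordAt_eq_one {f : ℍ → ℂ} (hf : MDiff f) {z : ℍ} (h0 : f z = 0) (hD : D f z ≠ 0) :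
    ordAt f z = 1 := by
  refine (analyticAt_of_mdiff hf z).analyticOrderAt_eq_one_of_zero_deriv_ne_zero ?_ ?_
  · simpa [ofComplex_apply] using h0
  · intro h
    apply hD
    rw [normalizedDerivOfComplex, h, mul_zero]

lemma ordAt_mul {f g : ℍ → ℂ} (hf : MDiff f) (hg : MDiff g) (z : ℍ) :
    ordAt (f * g) z = ordAt f z + ordAt g z :=
  analyticOrderAt_mul (analyticAt_of_mdiff hf z) (analyticAt_of_mdiff hg z)

lemma ordAt_pow {f : ℍ → ℂ} (hf : MDiff f) (n : ℕ) (z : ℍ) :
    ordAt (f ^ n) z = n • ordAt f z :=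
  analyticOrderAt_pow (analyticAt_of_mdiff hf z) n

lemma ordAt_eq_zero {f : ℍ → ℂ} (hf : MDiff f) {z : ℍ} (h : f z ≠ 0) : ordAt f z = 0 := by
  refine (analyticAt_of_mdiff hf z).analyticOrderAt_eq_zero.mpr ?_
  simpa [ofComplex_apply] using h

/-- ramification index of `j` at a point. -/
noncomputable def ramJ (c : ℂ) : ℕ := if c = 0 then 3 else if c = 1728 then 2 else 1

lemma ordAt_jfun_sub (z : ℍ) : ordAt (fun w => jfun w - jfun z) z = ramJ (jfun z) := by
  have hD0 := discriminant_ne_zero z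
  have hb := bracket_ne_zero z
  have hdisc := discriminant_eq_E₄_cube_sub_E₆_sq z
  rw [ramJ]
  split_ifs with h1 h2
  · -- j = 0
    have hE : E₄ z = 0 := by
      rw [jfun, div_eq_zero_iff] at h1
      exact pow_eq_zero_iff (three_ne_zero) |>.mp (h1.resolve_right hD0)
    have h3 : (fun w => jfun w - jfun z) * discriminant = (E₄ : ℍ → ℂ) ^ 3 := by
      ext w
      simp only [Pi.mul_apply, Pi.pow_apply, h1, sub_zero]
      exact div_mul_cancel₀ _ (discriminant_ne_zero w)
    have h4 : ordAt (fun w => jfun w - jfun z) z + ordAt discriminant z = 3 • ordAt E₄ z := by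
      rw [← ordAt_mul (f := fun w => jfun w - jfun z) (mdiff_jfun.sub mdifferentiable_const)
        mdiff_disc, h3, ordAt_pow mdiff_E4]
    rw [ordAt_eq_zero mdiff_disc hD0, add_zero, ordAt_eq_one mdiff_E4 hE] at h4
    · rw [h4]; simp
    · intro h5
      apply hb
      rw [bracket, hE, h5]; ring
  · -- j = 1728
    have hE : E₆ z = 0 := by
      have := jfun_sub_1728 z
      rw [h2, sub_self, eq_comm, div_eq_zero_iff] at this
      exact pow_eq_zero_iff (two_ne_zero) |>.mp (this.resolve_right hD0)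
    have h3 : (fun w => jfun w - jfun z) * discriminant = (E₆ : ℍ → ℂ) ^ 2 := by
      ext w
      simp only [Pi.mul_apply, Pi.pow_apply, h2]
      rw [jfun_sub_1728]
      exact div_mul_cancel₀ _ (discriminant_ne_zero w)
    have h4 : ordAt (fun w => jfun w - jfun z) z + ordAt discriminant z = 2 • ordAt E₆ z := by
      rw [← ordAt_mul (f := fun w => jfun w - jfun z) (mdiff_jfun.sub mdifferentiable_const)
        mdiff_disc, h3, ordAt_pow mdiff_E6]
    rw [ordAt_eq_zero mdiff_disc hD0, add_zero, ordAt_eq_one mdiff_E6 hE] at h4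
    · rw [h4]; simp
    · intro h5
      apply hb
      rw [bracket, hE, h5]; ring
  · have hE4 : E₄ z ≠ 0 := by
      intro h; apply h1; rw [jfun, h]; simp
    have hE6 : E₆ z ≠ 0 := by
      intro h; apply h2
      have := jfun_sub_1728 z
      rw [h] at this
      simpa [sub_eq_zero] using this
    have hDj : D jfun z ≠ 0 := by
      rw [D_jfun]
      exact div_ne_zero (mul_ne_zero (mul_ne_zero (pow_ne_zero _ hE4) hE6) hb)
        (mul_ne_zero (by norm_num) (pow_ne_zero _ hD0))
    have hder : deriv (jfun ∘ ofComplex) z ≠ 0 := by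
      intro h; apply hDj; rw [normalizedDerivOfComplex, h, mul_zero]
    have := (analyticAt_of_mdiff mdiff_jfun z).analyticOrderAt_sub_eq_one_of_deriv_ne_zero hder
    rw [ordAt]
    simpa [ofComplex_apply, Function.comp_def] using this

/-- `j` is surjective. -/
theorem jfun_surjective (c : ℂ) : ∃ z, jfun z = c := by
  by_contra hcon
  push Not at hcon
  have h0 : ∀ z, E₄ z ^ 3 - c * discriminant z ≠ 0 := by
    intro z h
    apply hcon z
    rw [jfun, div_eq_iff (discriminant_ne_zero z)]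
    linear_combination h
  set g : ℍ → ℂ := fun z => discriminant z / (E₄ z ^ 3 - c * discriminant z) with hg
  have hgj : ∀ z, g z = (jfun z - c)⁻¹ := by
    intro z
    have := discriminant_ne_zero z
    have h1 := h0 z
    have h2 : jfun z - c ≠ 0 := sub_ne_zero.mpr (hcon z)
    refine eq_inv_of_mul_eq_one_left ?_
    have h3 : jfun z - c = (E₄ z ^ 3 - c * discriminant z) / discriminant z := by
      rw [jfun]; field_simp
    rw [h3, hg]
    simp only []
    rw [div_mul_div_comm, mul_comm]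
    exact div_self (mul_ne_zero h1 this)
  have hlim : Tendsto g atImInfty (𝓝 0) := by
    have h1 : Tendsto (fun z => E₄ z ^ 3 - c * discriminant z) atImInfty (𝓝 (1 ^ 3 - c * 0)) :=
      (tendsto_E4.pow 3).sub (tendsto_disc.const_mul c)
    have := tendsto_disc.div h1 (by simp)
    rw [zero_div] at this
    exact this
  have hmd : MDiff g := mdiff_disc.div ((mdiff_E4.pow 3).sub
    ((mdifferentiable_const (c := c)).mul mdiff_disc)) h0
  obtain ⟨P, -, hP, hgP⟩ := exists_poly_jfun ⊤ 0 g hmd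
    (fun γ z => by rw [hgj, hgj, jfun_smul])
    (by
      have h1 := hlim.isBigO_one ℝ
      simp only [pow_zero, mul_one]
      exact h1)
    (by rw [mem_psIn]; intro; trivial)
  rw [Nat.le_zero, Polynomial.natDegree_eq_zero] at hP
  obtain ⟨a, rfl⟩ := hP
  have hga : ∀ z, g z = a := fun z => by simpa using hgP z
  have ha : a = 0 := by
    have : Tendsto g atImInfty (𝓝 a) := tendsto_const_nhds.congr fun z => (hga z).symm
    exact tendsto_nhds_unique this hlim
  have := hga UpperHalfPlane.I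
  rw [ha, hg, div_eq_zero_iff] at this
  exact this.elim (discriminant_ne_zero _) (h0 _)

end Fermat.Agent.JFun
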